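import Fermat.Agent.S17.H500.Package

/-!
# S17 / tower H, formal leaf F-QP (helper65): the quasi-parallelogram law

`qp : P.BZStatement → P.InvStatement → P.WDStatement q → QPStatement q` for an arbitrary
`P : PairingPackage A` (exact statement of `H500/HSkel.lean`, leaf F-QP).

Proof.  `B` is symmetric and exactly additive in each variable (disjoint supports).
`B inf E = B (Z one) E / m` is bounded (`BZ`), hence `B B₀ E` is bounded for `B₀` of class `0` and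
degree `d` (`Inv` against `d • inf`).  Sum rule: if `cls W = cls U + cls V` (all of degree `d`) then
`W + B₀ ∼ U + V`, so `B W E = B U E + B V E + O(1)` by `Inv`.  Choose generic representatives
`D_x, D_y, D_{x+y}, D_{x-y}, B₀` and primed ones disjoint from them (`mov1`), expand
`B(D_{x+y}, D'_{x+y})` and `B(D_{x-y}, D'_{x-y})` by six applications of the sum rule.
-/

set_option autoImplicit false

namespace Fermat.Agent.S17.H65

open Fermat.Agent.S17.H500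

variable {A : Type} [AddCommGroup A] (P : PairingPackage A)

theorem m_pos : 0 < P.m := by
  have h1 := P.one_le_g
  have h2 := P.two_g_le_d
  have h3 := P.four_d_le_m
  omega

theorem m_pos_real : (0 : ℝ) < P.m := by exact_mod_cast m_pos P

theorem d_add_le : P.d + 2 * P.g ≤ P.m := by
  have h3 := P.four_d_le_m
  omega

theorem two_d_add_le : 2 * P.d + 2 * P.g ≤ P.m := by
  have h3 := P.four_d_le_m
  omega

theorem pr_zero_left (E : P.Dv) : P.pr 0 E = 0 := by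
  have h := P.pr_add 0 0 E (by rw [add_zero]; exact P.disj_zero E)
  rw [add_zero] at h
  linarith

theorem disj_add_right {D E₁ E₂ : P.Dv} (h : P.Disj D (E₁ + E₂)) :
    P.Disj D E₁ ∧ P.Disj D E₂ := by
  have h' := (P.disj_add_left E₁ E₂ D).mp (P.disj_symm _ _ h)
  exact ⟨P.disj_symm _ _ h'.1, P.disj_symm _ _ h'.2⟩

theorem B_symm (D E : P.Dv) : P.B D E = P.B E D := by
  unfold PairingPackage.B
  rw [P.pr_symm D E]
  ring

theorem B_add (D₁ D₂ E : P.Dv) (h : P.Disj (D₁ + D₂) E) :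
    P.B (D₁ + D₂) E = P.B D₁ E + P.B D₂ E := by
  unfold PairingPackage.B
  rw [P.pr_add D₁ D₂ E h, P.N_add, map_add, Nat.cast_add]
  ring

theorem B_zero_left (E : P.Dv) : P.B 0 E = 0 := by
  have h := B_add P 0 0 E (by rw [add_zero]; exact P.disj_zero E)
  rw [add_zero] at h
  linarith

theorem disj_nsmul (n : ℕ) {D E : P.Dv} (h : P.Disj D E) : P.Disj (n • D) E := by
  induction n with
  | zero => rw [zero_nsmul]; exact P.disj_zero E
  | succ n ih => rw [succ_nsmul]; exact (P.disj_add_left _ _ _).mpr ⟨ih, h⟩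

theorem B_nsmul (n : ℕ) {D E : P.Dv} (h : P.Disj D E) : P.B (n • D) E = n * P.B D E := by
  induction n with
  | zero => rw [zero_nsmul, B_zero_left]; simp
  | succ n ih =>
    rw [succ_nsmul, B_add P _ _ _ ((P.disj_add_left _ _ _).mpr ⟨disj_nsmul P n h, h⟩), ih]
    push_cast
    ring

/-- `B inf E` is bounded. -/
theorem B_inf_bound (hBZ : P.BZStatement) :
    ∃ C : ℝ, ∀ E, P.Disj P.inf E → |P.B P.inf E| ≤ C * (P.deg E + 1) := by
  obtain ⟨C, hC⟩ := hBZ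
  refine ⟨C / P.m, fun E hE => ?_⟩
  have h1 := hC P.one E (by rw [P.Z_one]; exact disj_nsmul P _ hE)
  rw [P.Z_one, B_nsmul P _ hE, abs_mul, Nat.abs_cast] at h1
  have hm := m_pos_real P
  rw [div_mul_eq_mul_div, le_div_iff₀ hm]
  linarith

/-- `B B₀ E` is bounded for `B₀` of degree `d` and class `0`. -/
theorem B_zero_class_bound (hBZ : P.BZStatement) (hInv : P.InvStatement) :
    ∃ C : ℝ, ∀ B₀ E, P.deg B₀ = P.d → P.cls B₀ = 0 → P.Disj B₀ E → P.Disj P.inf E →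
      |P.B B₀ E| ≤ C * (P.deg E + 1) := by
  obtain ⟨C₁, hC₁⟩ := B_inf_bound P hBZ
  obtain ⟨C₂, hC₂⟩ := hInv
  refine ⟨C₂ + P.d * C₁, fun B₀ E hdeg hcls hB hinf => ?_⟩
  have hdeg' : P.deg (P.d • P.inf) = P.d := by
    rw [map_nsmul, P.deg_inf, smul_eq_mul, mul_one]
  have hcls' : P.cls (P.d • P.inf) = 0 := by
    rw [map_nsmul, P.cls_inf, smul_zero]
  have h1 := hC₂ B₀ (P.d • P.inf) E (by rw [hdeg, hdeg']) (by rw [hdeg]; exact d_add_le P)
    (by rw [hcls, hcls']) hB (disj_nsmul P _ hinf)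
  rw [B_nsmul P _ hinf] at h1
  have h2 := hC₁ E hinf
  have h3 : |(P.d : ℝ) * P.B P.inf E| ≤ P.d * (C₁ * (P.deg E + 1)) := by
    rw [abs_mul, Nat.abs_cast]
    exact mul_le_mul_of_nonneg_left h2 (Nat.cast_nonneg _)
  have h4 : |P.B B₀ E| ≤ |P.B B₀ E - P.d * P.B P.inf E| + |(P.d : ℝ) * P.B P.inf E| := by
    have := abs_add_le (P.B B₀ E - P.d * P.B P.inf E) ((P.d : ℝ) * P.B P.inf E)
    rwa [sub_add_cancel] at this
  nlinarith [h1, h3, h4]

/-- **Sum rule**: `B W E = B U E + B V E + O(1)` if `cls W = cls U + cls V`. -/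
theorem sum_rule (hBZ : P.BZStatement) (hInv : P.InvStatement) :
    ∃ C : ℝ, ∀ W U V B₀ E, P.deg W = P.d → P.deg U = P.d → P.deg V = P.d → P.deg B₀ = P.d →
      P.cls W = P.cls U + P.cls V → P.cls B₀ = 0 → P.deg E = P.d →
      P.Disj W E → P.Disj U E → P.Disj V E → P.Disj B₀ E → P.Disj P.inf E →
      |P.B W E - P.B U E - P.B V E| ≤ C := by
  obtain ⟨C₁, hC₁⟩ := B_zero_class_bound P hBZ hInv
  obtain ⟨C₂, hC₂⟩ := hInv
  refine ⟨(C₂ + C₁) * (P.d + 1), ?_⟩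
  intro W U V B₀ E hW hU hV hB hcls hcls0 hE dW dU dV dB dinf
  have hWB : P.Disj (W + B₀) E := (P.disj_add_left _ _ _).mpr ⟨dW, dB⟩
  have hUV : P.Disj (U + V) E := (P.disj_add_left _ _ _).mpr ⟨dU, dV⟩
  have h1 := hC₂ (W + B₀) (U + V) E (by rw [map_add, map_add, hW, hB, hU, hV])
    (by rw [map_add, hW, hB]; have := two_d_add_le P; omega)
    (by rw [map_add, map_add, hcls, hcls0, add_zero]) hWB hUV
  rw [B_add P _ _ _ hWB, B_add P _ _ _ hUV, hE] at h1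
  have h2 := hC₁ B₀ E hB hcls0 dB dinf
  rw [hE] at h2
  have h3 : |P.B W E - P.B U E - P.B V E| ≤
      |P.B W E + P.B B₀ E - (P.B U E + P.B V E)| + |P.B B₀ E| := by
    have := abs_sub (P.B W E + P.B B₀ E - (P.B U E + P.B V E)) (P.B B₀ E)
    have e : P.B W E + P.B B₀ E - (P.B U E + P.B V E) - P.B B₀ E =
        P.B W E - P.B U E - P.B V E := by ring
    rwa [e] at this
  linarith

/-- **F-QP**: the quasi-parallelogram law. -/
theorem qp (hBZ : P.BZStatement) (hInv : P.InvStatement) (q : A → ℝ) (hq : P.WDStatement q) :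
    QPStatement q := by
  obtain ⟨C₁, hC₁⟩ := sum_rule P hBZ hInv
  obtain ⟨C₂, hC₂⟩ := hq
  refine ⟨6 * C₂ + 3 * C₁, fun x y => ?_⟩
  -- unprimed representatives
  obtain ⟨Dx, hDx, cDx, -, gDx⟩ := P.mov1 x 0
  obtain ⟨Dy, hDy, cDy, -, gDy⟩ := P.mov1 y 0
  obtain ⟨Ds, hDs, cDs, -, gDs⟩ := P.mov1 (x + y) 0
  obtain ⟨Dt, hDt, cDt, -, gDt⟩ := P.mov1 (x - y) 0
  obtain ⟨B₀, hB₀, cB₀, -, gB₀⟩ := P.mov1 0 0
  -- primed representatives, disjoint from the unprimed ones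
  set T : P.Dv := Dx + Dy + Ds + Dt + B₀ with hT
  have split : ∀ E, P.Disj E T →
      P.Disj E Dx ∧ P.Disj E Dy ∧ P.Disj E Ds ∧ P.Disj E Dt ∧ P.Disj E B₀ := by
    intro E h
    obtain ⟨h1, h5⟩ := disj_add_right P h
    obtain ⟨h2, h4⟩ := disj_add_right P h1
    obtain ⟨h3, h3'⟩ := disj_add_right P h2
    obtain ⟨ha, hb⟩ := disj_add_right P h3
    exact ⟨ha, hb, h3', h4, h5⟩
  obtain ⟨Ex, hEx, cEx, dEx, gEx⟩ := P.mov1 x T
  obtain ⟨Ey, hEy, cEy, dEy, gEy⟩ := P.mov1 y T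
  obtain ⟨Es, hEs, cEs, dEs, gEs⟩ := P.mov1 (x + y) T
  obtain ⟨Et, hEt, cEt, dEt, gEt⟩ := P.mov1 (x - y) T
  obtain ⟨E₀, hE₀, cE₀, dE₀, gE₀⟩ := P.mov1 0 T
  obtain ⟨xx, xy, xs, xt, x0⟩ := split Ex dEx
  obtain ⟨yx, yy, ys, yt, y0⟩ := split Ey dEy
  obtain ⟨sx, sy, ss, st, s0⟩ := split Es dEs
  obtain ⟨tx, ty, ts, tt, t0⟩ := split Et dEt
  obtain ⟨ox, oy, os, ot, o0⟩ := split E₀ dE₀
  have sym := P.disj_symm
  have ginf : ∀ D, P.Good D → P.Disj P.inf D := fun D h => sym _ _ (P.good_disj_inf D h)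
  have hxy : x = (x - y) + y := by abel
  -- six applications of the sum rule
  have r1 := hC₁ Ds Dx Dy B₀ Es hDs hDx hDy hB₀ (by rw [cDs, cDx, cDy]) cB₀ hEs
    (sym _ _ ss) (sym _ _ sx) (sym _ _ sy) (sym _ _ s0) (ginf _ gEs)
  have r2 := hC₁ Es Ex Ey E₀ Dx hEs hEx hEy hE₀ (by rw [cEs, cEx, cEy]) cE₀ hDx
    sx xx yx ox (ginf _ gDx)
  have r3 := hC₁ Es Ex Ey E₀ Dy hEs hEx hEy hE₀ (by rw [cEs, cEx, cEy]) cE₀ hDy
    sy xy yy oy (ginf _ gDy)
  have r4 := hC₁ Dx Dt Dy B₀ Et hDx hDt hDy hB₀ (by rw [cDx, cDt, cDy]; exact hxy) cB₀ hEt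
    (sym _ _ tx) (sym _ _ tt) (sym _ _ ty) (sym _ _ t0) (ginf _ gEt)
  have r5 := hC₁ Ex Et Ey E₀ Dx hEx hEt hEy hE₀ (by rw [cEx, cEt, cEy]; exact hxy) cE₀ hDx
    xx tx yx ox (ginf _ gDx)
  have r6 := hC₁ Ex Et Ey E₀ Dy hEx hEt hEy hE₀ (by rw [cEx, cEt, cEy]; exact hxy) cE₀ hDy
    xy ty yy oy (ginf _ gDy)
  -- the four values of `q`
  have q1 := hC₂ (x + y) Ds Es hDs hEs cDs cEs gDs gEs (sym _ _ ss)
  have q2 := hC₂ (x - y) Dt Et hDt hEt cDt cEt gDt gEt (sym _ _ tt)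
  have q3 := hC₂ x Dx Ex hDx hEx cDx cEx gDx gEx (sym _ _ xx)
  have q4 := hC₂ y Dy Ey hDy hEy cDy cEy gDy gEy (sym _ _ yy)
  -- symmetry
  rw [B_symm P Dx Es] at r1
  rw [B_symm P Dy Es] at r1
  rw [B_symm P Dt Et, B_symm P Dx Et, B_symm P Dy Et] at r4
  rw [B_symm P Ds Es] at q1
  rw [B_symm P Dt Et] at q2
  rw [B_symm P Dx Ex] at q3
  rw [B_symm P Dy Ey] at q4
  rw [B_symm P Ds Es] at r1
  rw [abs_le] at r1 r2 r3 r4 r5 r6 q1 q2 q3 q4 ⊢
  constructor <;> linarith [r1.1, r1.2, r2.1, r2.2, r3.1, r3.2, r4.1, r4.2, r5.1, r5.2, r6.1,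
    r6.2, q1.1, q1.2, q2.1, q2.2, q3.1, q3.2, q4.1, q4.2]

end Fermat.Agent.S17.H65
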